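import Fermat.Agent.S17.FC.Defs

/-!
# S17/FC node FC0: elementary facts on divisors and on the (bi)additive extensions

* `deg_eq_sum`: `Finsupp.induction_linear` from `deg_single` (write `single P n = n • single P 1`).
* `eq_zero_of_deg_eq_zero`: a sum of nonnegative integers which vanishes.
* `exists_sub_single_nonneg`: `0 ≤ E`, `deg E = r + 1 > 0` so some `E Q ≥ 1`.
* `B_comm`: `del` is symmetric (`add_comm` in its definition); induction / `Finsupp.induction_linear` twice.
* `q_add_single`: `q (E + [Q]) = q E + B E [Q]` from bilinearity, `B_comm`, `B [Q] [Q] = del Q Q = lam [Q]`.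
* `Xi_cube`: `Xi` is a polynomial of degree two without constant term: expand everything (`map_add`, `ring`).
-/

set_option autoImplicit false

noncomputable section

namespace Fermat.Agent.S17.FC

open Finsupp

variable {X A : Type*} [AddCommGroup A] (S : Sys X A)

namespace Sys

theorem deg_eq_sum (E : X →₀ ℤ) : S.deg E = E.sum fun _ n => n := by
  have h : S.deg = Finsupp.liftAddHom (fun _ => AddMonoidHom.id ℤ) := by
    ext P
    simp [S.deg_single]
  rw [h]
  rfl

theorem eq_zero_of_deg_eq_zero {E : X →₀ ℤ} (hE : 0 ≤ E) (h : S.deg E = 0) : E = 0 := by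
  rw [deg_eq_sum, Finsupp.sum] at h
  have h1 := (Finset.sum_eq_zero_iff_of_nonneg (fun v _ => hE v)).mp h
  ext v
  by_cases hv : v ∈ E.support
  · exact h1 v hv
  · simpa using hv

theorem exists_sub_single_nonneg {E : X →₀ ℤ} (hE : 0 ≤ E) {r : ℕ} (h : S.deg E = (r + 1 : ℕ)) :
    ∃ (Q : X) (E₁ : X →₀ ℤ), 0 ≤ E₁ ∧ S.deg E₁ = r ∧ E = E₁ + single Q 1 := by
  classical
  have hne : E ≠ 0 := by
    rintro rfl
    rw [map_zero] at h
    omega
  obtain ⟨Q, hQ⟩ := Finsupp.ne_iff.mp hne
  have hQ' : 1 ≤ E Q := by
    have h1 : (0 : ℤ) ≤ E Q := hE Q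
    have h2 : E Q ≠ 0 := hQ
    omega
  refine ⟨Q, E - single Q 1, ?_, ?_, (sub_add_cancel _ _).symm⟩
  · intro w
    rw [Finsupp.sub_apply, Finsupp.single_apply]
    have h1 : (0 : ℤ) ≤ E w := hE w
    split_ifs with hw
    · subst hw; simpa using hQ'
    · simpa using h1
  · rw [map_sub, S.deg_single, h]
    push_cast
    ring

theorem hooD_single (P : X) : S.hooD (single P 1) = S.hoo P := by
  simp [hooD, Finsupp.linearCombination_single]

theorem lam_single (P : X) : S.lam (single P 1) = S.del P P := by
  simp [lam, Finsupp.linearCombination_single]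

theorem B_single_single (P Q : X) : S.B (single P 1) (single Q 1) = S.del P Q := by
  simp [B, Finsupp.linearCombination_single]

theorem del_comm (P Q : X) : S.del P Q = S.del Q P := by
  unfold del
  rw [add_comm (single P 1) (single Q 1), add_comm (S.hoo P) (S.hoo Q)]

theorem B_comm (E E' : X →₀ ℤ) : S.B E E' = S.B E' E := by
  induction E using Finsupp.induction_linear with
  | zero => simp
  | add f g hf hg => rw [map_add, map_add, LinearMap.add_apply, hf, hg]
  | single P n =>
    induction E' using Finsupp.induction_linear with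
    | zero => simp
    | add f g hf hg => rw [map_add, map_add, LinearMap.add_apply, hf, hg]
    | single Q m =>
      simp only [B, Finsupp.linearCombination_single, LinearMap.smul_apply]
      rw [S.del_comm P Q, smul_comm]

theorem q_zero : S.q 0 = 0 := by
  simp [q]

theorem q_add_single (E : X →₀ ℤ) (Q : X) : S.q (E + single Q 1) = S.q E + S.B E (single Q 1) := by
  unfold q
  simp only [map_add, LinearMap.add_apply]
  rw [S.B_comm (single Q 1) E, B_single_single, lam_single]
  ring

theorem Xi_cube (E₁ E₂ E₃ : X →₀ ℤ) :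
    S.Xi (E₁ + E₂ + E₃) - S.Xi (E₁ + E₂) - S.Xi (E₁ + E₃) - S.Xi (E₂ + E₃)
      + S.Xi E₁ + S.Xi E₂ + S.Xi E₃ = 0 := by
  unfold Xi q
  simp only [map_add, LinearMap.add_apply, Int.cast_add]
  ring

end Sys

end Fermat.Agent.S17.FC

end
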