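import Fermat.Agent.S17.FC.Interface
import Fermat.Agent.S17.F.Basic

/-!
# S17, block FC, node N0: function field lemmas for the formal Northcott inequality (skeleton helper197, proofs helper226)

`g := genusFF K F`, `c₀ := h1Bound K F`, `l(D) := finrank L(D)`.
* `exists_residual`: `E ≥ 0` of degree `g`, `n ≥ 2 g`.  `deg (n O - E) ≥ g` so `Lsp O n E ≠ 0` (Riemann's inequality
  `finrank_riemannRochSpace_sub_finrank_H1`); `s ≠ 0` in it; `A := zdiv O n s - E ≥ 0`.
* `Lsp_eq_span`: if `zdiv O n s = A + E` and `l(E) = 1` then `Lsp O n A = K s`: for `f ∈ L(n O - A)`, `f / s ∈ L(E)`, and `L(E)` = constants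
  (it contains `1` and has dimension one: `finrank_eq_one_iff'` or `algebraMap_mem_riemannRochSpace`).
* `finrank_Lm_le`, `finrank_Lsp_le_succ`: each point lowers the dimension by at most one (`Riemann.finrank_L_step_le`,
  `Riemann.finrank_L_add_le`).  `finrank_Lsp_pt_lt`: `F.finrank_L_eq` twice.
* `finite_divisors`: injection into the finite set of functions `T → {0..d}`, or `Finsupp`-finiteness lemmas, or induction on `d`.
-/

set_option autoImplicit false

noncomputable section

namespace Fermat.Agent.S17.FC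

open AlgebraicCurve Fermat.Agent.S24.FF Fermat.Agent.S27 Module

variable {K F : Type*} [Field K] [Field F] [Algebra K F] [IsAlgClosed K] [CharZero K] [IsFF1 K F]

variable [NonConst K F]

omit [CharZero K] [NonConst K F] in
theorem northFF_degree_nsmul_pt (O : Place K F) (n : ℕ) :
    Divisor.degree (n • pt O) = (n : ℤ) := by
  rw [map_nsmul, Fermat.Agent.S17.F.deg_pt_eq_one]
  simp

theorem exists_residual (O : Place K F) (n : ℕ) (hn : 2 * genusFF K F ≤ n) (E : Divisor K F)
    (hE : 0 ≤ E) (hdeg : Divisor.degree E = genusFF K F) :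
    ∃ (A : Divisor K F) (s : F), 0 ≤ A ∧ Divisor.degree A = (n - genusFF K F : ℕ) ∧ s ≠ 0 ∧
      zdiv O n s = A + E := by
  set D : Divisor K F := n • pt O - E with hD
  have hdegD : Divisor.degree D = (n : ℤ) - genusFF K F := by
    rw [hD, map_sub, northFF_degree_nsmul_pt, hdeg]
  have h1 := finrank_riemannRochSpace_sub_finrank_H1 D
  rw [hdegD] at h1
  have hpos : 0 < finrank K (riemannRochSpace D) := by
    have h2 : (0 : ℤ) ≤ (finrank K (H1 D) : ℤ) := Int.natCast_nonneg _
    have h3 : (2 * genusFF K F : ℤ) ≤ n := by exact_mod_cast hn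
    omega
  have hne : riemannRochSpace D ≠ ⊥ := by
    intro h
    rw [h, finrank_bot] at hpos
    exact lt_irrefl _ hpos
  obtain ⟨s, hs, hs0⟩ := Submodule.exists_mem_ne_zero_of_ne_bot hne
  refine ⟨zdiv O n s - E, s, ?_, ?_, hs0, (sub_add_cancel _ _).symm⟩
  · intro v
    have h4 := ((mem_riemannRochSpace_iff.mp hs) v).resolve_left hs0
    rw [hD, Finsupp.sub_apply] at h4
    rw [zdiv, Finsupp.sub_apply, Finsupp.add_apply, Riemann.divOf_apply, Finsupp.zero_apply]
    omega
  · rw [zdiv, map_sub, map_add, Riemann.degree_divOf, northFF_degree_nsmul_pt, hdeg]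
    have h3 : genusFF K F ≤ n := by omega
    push_cast [h3]
    ring

theorem Lsp_eq_span (O : Place K F) (n : ℕ) (A E : Divisor K F) (s : F) (hE : 0 ≤ E)
    (hl : finrank K (riemannRochSpace E) = 1) (hs : s ≠ 0) (h : zdiv O n s = A + E) :
    Lsp O n A = Submodule.span K {s} := by
  have hv : ∀ v : Place K F, v.ord s + (n • pt O) v = A v + E v := by
    intro v
    have := DFunLike.congr_fun h v
    rwa [zdiv, Finsupp.add_apply, Finsupp.add_apply, Riemann.divOf_apply] at this
  have h1mem : (1 : F) ∈ riemannRochSpace E := by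
    have := algebraMap_mem_riemannRochSpace hE (1 : K)
    rwa [map_one] at this
  have hconst : ∀ w ∈ riemannRochSpace E, ∃ c : K, c • (1 : F) = w := by
    intro w hw
    have h2 := (finrank_eq_one_iff_of_nonzero' (⟨1, h1mem⟩ : riemannRochSpace E)
      (by
        intro h0
        exact one_ne_zero (congrArg Subtype.val h0))).mp hl ⟨w, hw⟩
    obtain ⟨c, hc⟩ := h2
    exact ⟨c, congrArg Subtype.val hc⟩
  apply le_antisymm
  · intro f hf
    rw [Lsp, mem_riemannRochSpace_iff] at hf
    have hfs : f / s ∈ riemannRochSpace E := by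
      rw [mem_riemannRochSpace_iff]
      intro v
      by_cases hf0 : f = 0
      · left; rw [hf0, zero_div]
      right
      have h3 := (hf v).resolve_left hf0
      rw [Finsupp.sub_apply] at h3
      rw [div_eq_mul_inv, v.ord_mul hf0 (inv_ne_zero hs), v.ord_inv]
      have := hv v
      omega
    obtain ⟨c, hc⟩ := hconst _ hfs
    rw [Submodule.mem_span_singleton]
    refine ⟨c, ?_⟩
    have h4 : f = f / s * s := by field_simp
    rw [h4, ← hc, smul_mul_assoc, one_mul]
  · rw [Submodule.span_singleton_le_iff_mem, Lsp, mem_riemannRochSpace_iff]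
    intro v
    right
    rw [Finsupp.sub_apply]
    have := hv v
    have h5 : (0 : ℤ) ≤ E v := hE v
    omega

theorem finrank_Lm_le (O : Place K F) (n k : ℕ) (A : Divisor K F) (hA : 0 ≤ A)
    (hdeg : Divisor.degree A = k) : finrank K (Lm O n) ≤ finrank K (Lsp O n A) + k := by
  have h1 := Riemann.finrank_L_add_le NonConst.out (n • pt O - A) A hA
  rw [sub_add_cancel, hdeg] at h1
  rw [Lm, Lsp]
  exact_mod_cast h1

theorem finrank_Lsp_le_succ (O : Place K F) (n : ℕ) (A : Divisor K F) (P : Place K F) :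
    finrank K (Lsp O n A) ≤ finrank K (Lsp O n (A + pt P)) + 1 := by
  have h1 := Riemann.finrank_L_step_le NonConst.out (n • pt O - (A + pt P)) P
  have h2 : n • pt O - (A + pt P) + Finsupp.single P 1 = n • pt O - A := by
    show n • pt O - (A + pt P) + pt P = n • pt O - A
    abel
  rw [h2] at h1
  exact h1

theorem finrank_Lsp_pt_lt (O : Place K F) (M : ℕ) (hM : h1Bound K F + 1 ≤ M) (P : Place K F) :
    finrank K (Lsp O M (pt P)) < finrank K (Lm O M) := by
  have hM' : (h1Bound K F : ℤ) + 1 ≤ M := by exact_mod_cast hM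
  have hd1 : Divisor.degree (M • pt O) = (M : ℤ) := northFF_degree_nsmul_pt O M
  have hd2 : Divisor.degree (M • pt O - pt P) = (M : ℤ) - 1 := by
    rw [map_sub, hd1, Fermat.Agent.S17.F.deg_pt_eq_one]
  have h1 := Fermat.Agent.S17.F.finrank_L_eq (M • pt O) (by rw [hd1]; omega)
  have h2 := Fermat.Agent.S17.F.finrank_L_eq (M • pt O - pt P) (by rw [hd2]; omega)
  rw [hd1] at h1
  rw [hd2] at h2
  rw [Lm, Lsp]
  omega

/-- divisors of bounded degree supported in a finite set -/
theorem finite_divisors (T : Set (Place K F)) (hT : T.Finite) (d : ℕ) :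
    {E : Divisor K F | 0 ≤ E ∧ Divisor.degree E ≤ d ∧ (E.support : Set (Place K F)) ⊆ T}.Finite := by
  classical
  refine (Finset.finite_toSet
    (hT.toFinset.finsupp (fun _ => Finset.Icc (0 : ℤ) d))).subset ?_
  rintro E ⟨hE, hdeg, hsupp⟩
  rw [Finset.mem_coe, Finset.mem_finsupp_iff]
  refine ⟨fun v hv => hT.mem_toFinset.mpr (hsupp hv), fun v _ => ?_⟩
  rw [Finset.mem_Icc]
  refine ⟨hE v, ?_⟩
  by_cases hv : v ∈ E.support
  · have h1 : E v ≤ ∑ w ∈ E.support, E w :=
      Finset.single_le_sum (f := fun w => E w) (fun w _ => hE w) hv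
    rw [← Riemann.degree_eq_sum] at h1
    exact h1.trans hdeg
  · rw [Finsupp.notMem_support_iff.mp hv]
    exact Int.natCast_nonneg d

end Fermat.Agent.S17.FC

end
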