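import Fermat.Agent.S17.FC.Inst
import Fermat.Agent.S17.FC.NorthFF

/-!
# S17, block FC, node N1: the chain inequality (skeleton helper197, proofs helper82)

* `hoo_nonneg`: `hoo P = H (1+c) (pt P) / (1+c)`, `S.nonneg`.  `hooD_nonneg`: `Finsupp.linearCombination_apply`, `Finsupp.sum`, each term `E P • hoo P ≥ 0`.
* `hooD_sum_pt`: linearity, `Finsupp.linearCombination_single` (`pt P = single P 1` by `rfl`).
* `chain_le`: induction on `k` (`Fin.sum_univ_castSucc`), constant `C_{k+1} = C_k + C`, `C` from `S.addLe n M`; `C_0 = H n 0`.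
  Step: `A = A' + pt P`; from `l(A) + k + 1 = d`, `d ≤ l(A') + k` (`finrank_Lm_le`), `l(A') ≤ l(A) + 1` (`finrank_Lsp_le_succ`) get
  `l(A') + k = d` (induction hypothesis applies) and `l(A' + pt P) < l(A')` (so `S.addLe` applies, with `finrank_Lsp_pt_lt`).
-/

set_option autoImplicit false

noncomputable section

namespace Fermat.Agent.S17.FC

open AlgebraicCurve Fermat.Agent.S24.FF Fermat.Agent.S27 Module

variable {K F : Type*} [Field K] [Field F] [Algebra K F] [IsAlgClosed K] [CharZero K] [IsFF1 K F]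

omit [IsAlgClosed K] [CharZero K] [IsFF1 K F] in
theorem chain_pt_nonneg (P : Place K F) : 0 ≤ pt P := by
  intro v
  rw [pt, Finsupp.zero_apply]
  classical
  rw [Finsupp.single_apply]
  split_ifs <;> norm_num

omit [IsAlgClosed K] [CharZero K] [IsFF1 K F] in
theorem chain_sum_pt_nonneg {k : ℕ} (w : Fin k → Place K F) : 0 ≤ ∑ i, pt (w i) :=
  Finset.sum_nonneg fun i _ => chain_pt_nonneg (w i)

theorem chain_degree_sum_pt {k : ℕ} (w : Fin k → Place K F) :
    Divisor.degree (∑ i, pt (w i)) = k := by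
  rw [map_sum]
  simp [degree_pt]

variable [NonConst K F]

namespace HeightSystem

variable {O : Place K F} (S : HeightSystem O)

theorem hoo_nonneg (P : Place K F) : 0 ≤ S.toSys.hoo P := by
  unfold Sys.hoo
  exact div_nonneg (S.nonneg _ _) (Nat.cast_nonneg _)

theorem hooD_nonneg {E : Divisor K F} (hE : 0 ≤ E) : 0 ≤ S.toSys.hooD E := by
  unfold Sys.hooD
  rw [Finsupp.linearCombination_apply, Finsupp.sum]
  exact Finset.sum_nonneg fun P _ => smul_nonneg (hE P) (S.hoo_nonneg P)

theorem hooD_sum_pt {k : ℕ} (w : Fin k → Place K F) :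
    S.toSys.hooD (∑ i, pt (w i)) = ∑ i, S.toSys.hoo (w i) := by
  rw [map_sum]
  exact Finset.sum_congr rfl fun i _ => S.toSys.hooD_single (w i)

theorem chain_le (n M k : ℕ) (hM : h1Bound K F + 1 ≤ M) :
    ∃ C : ℝ, ∀ w : Fin k → Place K F,
      finrank K (Lsp O n (∑ i, pt (w i))) + k = finrank K (Lm O n) →
      S.H n (∑ i, pt (w i)) + ∑ i, S.H M (pt (w i)) ≤ S.H (n + M) (∑ i, pt (w i)) + C := by
  induction k with
  | zero =>
    refine ⟨S.H n 0, fun w _ => ?_⟩
    simp only [Finset.univ_eq_empty, Finset.sum_empty, add_zero]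
    have := S.nonneg (n + M) 0
    linarith
  | succ k ih =>
    obtain ⟨C₁, h₁⟩ := ih
    obtain ⟨C₂, h₂⟩ := S.addLe n M
    refine ⟨C₁ + C₂, fun w hw => ?_⟩
    rw [Fin.sum_univ_castSucc (fun i => pt (w i))] at hw ⊢
    rw [Fin.sum_univ_castSucc (fun i => S.H M (pt (w i)))]
    set w' : Fin k → Place K F := fun i => w i.castSucc with hw'
    set A' : Divisor K F := ∑ i, pt (w' i) with hA'
    set P : Place K F := w (Fin.last k) with hP
    have hA'0 : 0 ≤ A' := chain_sum_pt_nonneg w'
    have e1 := finrank_Lm_le O n k A' hA'0 (chain_degree_sum_pt w')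
    have e2 := finrank_Lsp_le_succ O n A' P
    have e3 : finrank K (Lsp O n A') + k = finrank K (Lm O n) := by omega
    have e4 : finrank K (Lsp O n (A' + pt P)) < finrank K (Lsp O n A') := by omega
    have i1 := h₁ w' e3
    have i2 := h₂ A' P hA'0 e4 (finrank_Lsp_pt_lt O M hM P)
    linarith

end HeightSystem

end Fermat.Agent.S17.FC

end
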