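import Fermat.Agent.S17.FC.Eta

/-!
# S17/FC node FC6: `Xi` is a class function up to `O(1)`

`π E = π E'`, degrees `r`, `r'`.  `riemann (-π E) g`: `R ≥ 0` of degree `g`, `π R = -π E`.  `Z := E + R`, `Z' := E' + R`:
effective, `π = 0`, degrees `r + g`, `r' + g`.  `M := (r + r' + 1) (2 + c)`, `n := r + M`, `n' := r' + M`.
Axiom `mul` for `(n, r' + g, r; E, Z')` and `(n', r + g, r'; E', Z)`: same divisor `E + E' + R`, same level, same factor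
`κ = M + 1 - g`.  So `H n E - H n' E' = κ (η Z - η Z') + O(1) = κ (hooD E - hooD E') + O(1)` (`eta_eq`).
`H_eq`: `H n E = n hooD E + q E`, `H n' E' = n' hooD E' + q E'`.  `n - κ = r - 1 + g`.
-/

set_option autoImplicit false

noncomputable section

namespace Fermat.Agent.S17.FC

open Finsupp

variable {X A : Type*} [AddCommGroup A] (S : Sys X A)

namespace Sys

theorem Xi_class (r r' : ℕ) :
    ∃ C : ℝ, ∀ E E' : X →₀ ℤ, 0 ≤ E → 0 ≤ E' → S.deg E = r → S.deg E' = r' → S.π E = S.π E' →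
      |S.Xi E - S.Xi E'| ≤ C := by
  obtain ⟨M, hM⟩ : ∃ M : ℕ, M = (r + r' + 1) * (2 + S.c) := ⟨_, rfl⟩
  have hMc : S.c ≤ M := by
    have : 1 * (2 + S.c) ≤ M := hM ▸ Nat.mul_le_mul_right _ (by omega)
    omega
  have hMr : (r + 1) * (2 + S.c) ≤ M := hM ▸ Nat.mul_le_mul_right _ (by omega)
  have hMr' : (r' + 1) * (2 + S.c) ≤ M := hM ▸ Nat.mul_le_mul_right _ (by omega)
  clear hM
  obtain ⟨C1, h1⟩ := S.mul (r + M) (r' + S.g) r (by omega)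
  obtain ⟨C2, h2⟩ := S.mul (r' + M) (r + S.g) r' (by omega)
  obtain ⟨C3, h3⟩ := S.eta_eq (r + S.g)
  obtain ⟨C4, h4⟩ := S.eta_eq (r' + S.g)
  obtain ⟨C5, h5⟩ := S.H_eq r (r + M) (by omega)
  obtain ⟨C6, h6⟩ := S.H_eq r' (r' + M) (by omega)
  obtain ⟨κ, hκ⟩ : ∃ κ : ℝ, κ = (M : ℝ) + 1 - S.g := ⟨_, rfl⟩
  refine ⟨C1 + C2 + |κ| * (C3 + C4) + C5 + C6, fun E E' hE hE' hdE hdE' hπ => ?_⟩
  obtain ⟨R, hR, hdR, hπR⟩ := S.riemann (-S.π E) S.g le_rfl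
  have hZ : 0 ≤ E + R := add_nonneg hE hR
  have hZ' : 0 ≤ E' + R := add_nonneg hE' hR
  have hdZ : S.deg (E + R) = ((r + S.g : ℕ) : ℤ) := by
    rw [map_add, hdE, hdR]; push_cast; ring
  have hdZ' : S.deg (E' + R) = ((r' + S.g : ℕ) : ℤ) := by
    rw [map_add, hdE', hdR]; push_cast; ring
  have hπZ : S.π (E + R) = 0 := by rw [map_add, hπR]; abel
  have hπZ' : S.π (E' + R) = 0 := by rw [map_add, hπR, ← hπ]; abel
  have k1 := h1 E (E' + R) hE hdE hZ' hdZ' hπZ'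
  have k2 := h2 E' (E + R) hE' hdE' hZ hdZ hπZ
  have k3 := h3 (E + R) hZ hdZ hπZ
  have k4 := h4 (E' + R) hZ' hdZ' hπZ'
  have k5 := h5 E hE hdE
  have k6 := h6 E' hE' hdE'
  have e1 : r' + M + (r + S.g) = r + M + (r' + S.g) := by omega
  have e2 : E' + (E + R) = E + (E' + R) := by abel
  rw [e1, e2] at k2
  have f1 : ((r + M : ℕ) : ℝ) - r + 1 - S.g = κ := by rw [hκ]; push_cast; ring
  have f2 : ((r' + M : ℕ) : ℝ) - r' + 1 - S.g = κ := by rw [hκ]; push_cast; ring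
  rw [f1] at k1
  rw [f2] at k2
  have k3' : |κ * (S.η (E + R) - S.hooD (E + R))| ≤ |κ| * C3 := by
    rw [abs_mul]; exact mul_le_mul_of_nonneg_left k3 (abs_nonneg _)
  have k4' : |κ * (S.η (E' + R) - S.hooD (E' + R))| ≤ |κ| * C4 := by
    rw [abs_mul]; exact mul_le_mul_of_nonneg_left k4 (abs_nonneg _)
  rw [map_add] at k3' k4'
  have g1 : S.Xi E = (((r + M : ℕ) : ℝ) - κ) * S.hooD E + S.q E := by
    rw [Sys.Xi, hdE, hκ]; push_cast; ring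
  have g2 : S.Xi E' = (((r' + M : ℕ) : ℝ) - κ) * S.hooD E' + S.q E' := by
    rw [Sys.Xi, hdE', hκ]; push_cast; ring
  rw [g1, g2]
  rw [abs_le] at k1 k2 k3' k4' k5 k6 ⊢
  obtain ⟨k1a, k1b⟩ := k1
  obtain ⟨k2a, k2b⟩ := k2
  obtain ⟨k3a, k3b⟩ := k3'
  obtain ⟨k4a, k4b⟩ := k4'
  obtain ⟨k5a, k5b⟩ := k5
  obtain ⟨k6a, k6b⟩ := k6
  constructor <;> linarith

end Sys

end Fermat.Agent.S17.FC

end
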