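import Mathlib

/-!
# S17, block FC ("formal consequences", architect helper137): definitions

ABSTRACT version of the passage
  (A) additivity + (M) multiplication by sections  ==>  `Xi` is a class function and an exact quadratic polynomial
  ==>  a function `f` on the class group with bounded third difference
of the TP route (report #1021 of helper77).  No geometry here: `X` = points, `X →₀ ℤ` = divisors,
`π D` = class of `D - deg D • ∞` in the class group `A`, `H n E` = height of `L(n ∞ - E)` inside `L(n ∞)`,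
`η Z` = height of the section of `L(m ∞)` with zero divisor `Z` (`deg Z = m`, `π Z = 0`).
All the constants are allowed to depend on the levels and the degrees.
-/

set_option autoImplicit false

noncomputable section

namespace Fermat.Agent.S17.FC

open Finsupp

/-- An abstract system of heights `H n E` of effective divisors. -/
structure Sys (X A : Type*) [AddCommGroup A] where
  /-- the genus -/
  g : ℕ
  /-- the threshold: `H n E` is meaningful for `deg E + c ≤ n` -/
  c : ℕ
  deg : (X →₀ ℤ) →+ ℤ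
  π : (X →₀ ℤ) →+ A
  H : ℕ → (X →₀ ℤ) → ℝ
  η : (X →₀ ℤ) → ℝ
  deg_single : ∀ P : X, deg (single P 1) = 1
  riemann : ∀ (a : A) (r : ℕ), g ≤ r → ∃ E : X →₀ ℤ, 0 ≤ E ∧ deg E = r ∧ π E = a
  /-- (A) -/
  add : ∀ n m r r' : ℕ, r + 1 + c ≤ n → r' + 1 + c ≤ m → ∃ C : ℝ,
    ∀ (E E' : X →₀ ℤ) (P : X), 0 ≤ E → 0 ≤ E' → deg E = r → deg E' = r' →
      |H (n + m) (E + E' + single P 1) - H (n + m) (E + E')
        - (H n (E + single P 1) - H n E) - (H m (E' + single P 1) - H m E')| ≤ C
  /-- (M) -/
  mul : ∀ n m r : ℕ, r + c ≤ n → ∃ C : ℝ,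
    ∀ E Z : X →₀ ℤ, 0 ≤ E → deg E = r → 0 ≤ Z → deg Z = m → π Z = 0 →
      |H (n + m) (E + Z) - H n E - ((n : ℝ) - r + 1 - g) * η Z| ≤ C

variable {X A : Type*} [AddCommGroup A] (S : Sys X A)

namespace Sys

/-- the height of a point relative to `∞` -/
def hoo (P : X) : ℝ := S.H (1 + S.c) (single P 1) / ((1 + S.c : ℕ) : ℝ)

/-- the "diagonal" term -/
def del (P Q : X) : ℝ :=
  S.H (2 + S.c) (single P 1 + single Q 1) - ((2 + S.c : ℕ) : ℝ) * (S.hoo P + S.hoo Q)

/-- `hoo` extended additively to divisors -/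
def hooD : (X →₀ ℤ) →ₗ[ℤ] ℝ := Finsupp.linearCombination ℤ S.hoo

/-- `del` extended biadditively to divisors -/
def B : (X →₀ ℤ) →ₗ[ℤ] (X →₀ ℤ) →ₗ[ℤ] ℝ :=
  Finsupp.linearCombination ℤ fun P => Finsupp.linearCombination ℤ (S.del P)

/-- `P ↦ del P P` extended additively to divisors -/
def lam : (X →₀ ℤ) →ₗ[ℤ] ℝ := Finsupp.linearCombination ℤ fun P => S.del P P

/-- `∑_{i<j} del (P_i, P_j)` for `E = ∑ P_i` -/
def q (E : X →₀ ℤ) : ℝ := (S.B E E - S.lam E) / 2

/-- the class function -/
def Xi (E : X →₀ ℤ) : ℝ := ((S.deg E : ℝ) - 1 + S.g) * S.hooD E + S.q E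

/-- an effective representative of degree `g` -/
def rep (a : A) : X →₀ ℤ := (S.riemann a S.g le_rfl).choose

theorem rep_nonneg (a : A) : 0 ≤ S.rep a := (S.riemann a S.g le_rfl).choose_spec.1

theorem deg_rep (a : A) : S.deg (S.rep a) = S.g := (S.riemann a S.g le_rfl).choose_spec.2.1

theorem π_rep (a : A) : S.π (S.rep a) = a := (S.riemann a S.g le_rfl).choose_spec.2.2

/-- the height function on the class group -/
def f (a : A) : ℝ := S.Xi (S.rep a)

end Sys

end Fermat.Agent.S17.FC

end
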