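import Fermat.Agent.S17.FC.Pair

/-!
# S17/FC node FC3: adding a point, `H n (E + [P]) - H n E = n hoo P + B E [P] + O(1)`

Induction on `r = deg E`.  `r = 0`: `E = 0` (`eq_zero_of_deg_eq_zero`), `H_point_eq`, `H n 0` is a constant.
`r + 1`: `E = E₁ + [Q]` (`exists_sub_single_nonneg`); `m := 2 + c`, `n' := n - m ≥ (r + 1) (2 + c)`; axiom `add` for
`(n', r, E₁)`, `(m, 1, [Q])`; induction hypothesis for `E₁` at level `n'`; `H_pair_eq`, `H_point_eq` at level `m`;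
`B (E₁ + [Q]) [P] = B E₁ [P] + del Q P`.
-/

set_option autoImplicit false

noncomputable section

namespace Fermat.Agent.S17.FC

open Finsupp

variable {X A : Type*} [AddCommGroup A] (S : Sys X A)

namespace Sys

theorem H_diff_eq (r n : ℕ) (hn : (r + 1) * (2 + S.c) ≤ n) :
    ∃ C : ℝ, ∀ (E : X →₀ ℤ) (P : X), 0 ≤ E → S.deg E = r →
      |S.H n (E + single P 1) - S.H n E - n * S.hoo P - S.B E (single P 1)| ≤ C := by
  induction r generalizing n with
  | zero =>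
    obtain ⟨C₁, h₁⟩ := S.H_point_eq n (by omega)
    refine ⟨C₁ + |S.H n 0|, fun E P hE hdeg => ?_⟩
    have hE0 : E = 0 := S.eq_zero_of_deg_eq_zero hE (by simpa using hdeg)
    subst hE0
    have e₁ := h₁ P
    have a1 := neg_abs_le (S.H n 0)
    have a2 := le_abs_self (S.H n 0)
    rw [zero_add, map_zero, LinearMap.zero_apply]
    rw [abs_le] at e₁ ⊢
    constructor <;> linarith [e₁.1, e₁.2]
  | succ r ih =>
    have hexp : (r + 1 + 1) * (2 + S.c) = (r + 1) * (2 + S.c) + (2 + S.c) := by ring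
    have hn' : (r + 1) * (2 + S.c) ≤ n - (2 + S.c) := by omega
    have hlow : r + 1 + S.c ≤ (r + 1) * (2 + S.c) := by nlinarith
    obtain ⟨C₀, h₀⟩ := S.add (n - (2 + S.c)) (2 + S.c) r 1 (by omega) (by omega)
    obtain ⟨C₁, h₁⟩ := ih (n - (2 + S.c)) hn'
    obtain ⟨C₂, h₂⟩ := S.H_pair_eq (2 + S.c) le_rfl
    obtain ⟨C₃, h₃⟩ := S.H_point_eq (2 + S.c) (by omega)
    have hlev : n - (2 + S.c) + (2 + S.c) = n := by omega
    rw [hlev] at h₀
    refine ⟨C₀ + C₁ + C₂ + C₃, fun E P hE hdeg => ?_⟩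
    obtain ⟨Q, E₁, hE₁, hdeg₁, rfl⟩ := S.exists_sub_single_nonneg hE hdeg
    have hQ0 : (0 : X →₀ ℤ) ≤ single Q 1 := by simp
    have e₀ := h₀ E₁ (single Q 1) P hE₁ hQ0 hdeg₁ (by simpa using S.deg_single Q)
    have e₁ := h₁ E₁ P hE₁ hdeg₁
    have e₂ := h₂ Q P
    have e₃ := h₃ Q
    have hcast : (n : ℝ) = ((n - (2 + S.c) : ℕ) : ℝ) + ((2 + S.c : ℕ) : ℝ) := by
      rw [← Nat.cast_add, hlev]
    rw [map_add, LinearMap.add_apply, B_single_single, hcast]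
    rw [abs_le] at e₀ e₁ e₂ e₃ ⊢
    constructor <;> nlinarith [e₀.1, e₀.2, e₁.1, e₁.2, e₂.1, e₂.2, e₃.1, e₃.2]

end Sys

end Fermat.Agent.S17.FC

end
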