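import Fermat.Agent.S17.FC.Quad

/-!
# S17/FC node FC5: the height of a section is the height of its zero divisor, `η Z = hooD Z + O(1)`

Axiom `mul` with `E = 0`, `r = 0` at two consecutive levels `N`, `N + 1` (`N := (m + 1) (2 + c)`):
`H (N + 1 + m) Z - H (N + m) Z = η Z + O(1)`; `H_eq m` at the levels `N + m`, `N + 1 + m` gives `hooD Z + O(1)`.
-/

set_option autoImplicit false

noncomputable section

namespace Fermat.Agent.S17.FC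

open Finsupp

variable {X A : Type*} [AddCommGroup A] (S : Sys X A)

namespace Sys

theorem eta_eq (m : ℕ) :
    ∃ C : ℝ, ∀ Z : X →₀ ℤ, 0 ≤ Z → S.deg Z = m → S.π Z = 0 → |S.η Z - S.hooD Z| ≤ C := by
  have hcN : 0 + S.c ≤ (m + 1) * (2 + S.c) := by nlinarith [Nat.zero_le m, Nat.zero_le S.c]
  obtain ⟨C₁, h₁⟩ := S.mul ((m + 1) * (2 + S.c)) m 0 hcN
  obtain ⟨C₂, h₂⟩ := S.mul ((m + 1) * (2 + S.c) + 1) m 0 (by omega)
  obtain ⟨C₃, h₃⟩ := S.H_eq m ((m + 1) * (2 + S.c) + m) (by omega)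
  obtain ⟨C₄, h₄⟩ := S.H_eq m ((m + 1) * (2 + S.c) + 1 + m) (by omega)
  refine ⟨C₁ + C₂ + C₃ + C₄
    + |S.H ((m + 1) * (2 + S.c) + 1) 0 - S.H ((m + 1) * (2 + S.c)) 0|, fun Z hZ hd hπ => ?_⟩
  have e₁ := h₁ 0 Z le_rfl (by simp) hZ hd hπ
  have e₂ := h₂ 0 Z le_rfl (by simp) hZ hd hπ
  have e₃ := h₃ Z hZ hd
  have e₄ := h₄ Z hZ hd
  rw [zero_add] at e₁ e₂
  have e₅ := le_abs_self (S.H ((m + 1) * (2 + S.c) + 1) 0 - S.H ((m + 1) * (2 + S.c)) 0)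
  have e₆ := neg_abs_le (S.H ((m + 1) * (2 + S.c) + 1) 0 - S.H ((m + 1) * (2 + S.c)) 0)
  generalize |S.H ((m + 1) * (2 + S.c) + 1) 0 - S.H ((m + 1) * (2 + S.c)) 0| = K at *
  generalize (m + 1) * (2 + S.c) = N at *
  rw [abs_le] at e₁ e₂ e₃ e₄ ⊢
  push_cast at e₁ e₂ e₃ e₄
  constructor <;> linarith [e₁.1, e₁.2, e₂.1, e₂.2, e₃.1, e₃.2, e₄.1, e₄.2]

end Sys

end Fermat.Agent.S17.FC

end
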