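import Fermat.Agent.S17.FC.Class
import Fermat.Agent.S17.Tools.QuasiQuad

/-!
# S17/FC node FC7: the deliverables of block FC

* `f_eq`: `Xi_class g r` with `rep (π E)`.
* `f_eq_H`: `f_eq` and `H_eq`.
* `cube`: `f (x + y + z) = Xi (rep x + rep y + rep z) + O(1)` etc. (`f_eq` for the degrees `3 g`, `2 g`, `g`), `Xi_cube`.
-/

set_option autoImplicit false

noncomputable section

namespace Fermat.Agent.S17.FC

open Finsupp

variable {X A : Type*} [AddCommGroup A] (S : Sys X A)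

namespace Sys

theorem f_eq (r : ℕ) :
    ∃ C : ℝ, ∀ E : X →₀ ℤ, 0 ≤ E → S.deg E = r → |S.f (S.π E) - S.Xi E| ≤ C := by
  obtain ⟨C, hC⟩ := S.Xi_class S.g r
  exact ⟨C, fun E hE hdeg =>
    hC (S.rep (S.π E)) E (S.rep_nonneg _) hE (S.deg_rep _) hdeg (S.π_rep _)⟩

theorem f_eq_H (r n : ℕ) (hn : (r + 1) * (2 + S.c) ≤ n) :
    ∃ C : ℝ, ∀ E : X →₀ ℤ, 0 ≤ E → S.deg E = r →
      |S.f (S.π E) - (S.H n E - ((n : ℝ) - r + 1 - S.g) * S.hooD E)| ≤ C := by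
  obtain ⟨C₁, h₁⟩ := S.f_eq r
  obtain ⟨C₂, h₂⟩ := S.H_eq r n hn
  refine ⟨C₁ + C₂, fun E hE hdeg => ?_⟩
  have e₁ := h₁ E hE hdeg
  have e₂ := h₂ E hE hdeg
  have hXi : S.Xi E = ((r : ℝ) - 1 + S.g) * S.hooD E + S.q E := by
    rw [Xi, hdeg]
    push_cast
    ring
  rw [hXi] at e₁
  rw [abs_le] at e₁ e₂ ⊢
  constructor <;> nlinarith [e₁.1, e₁.2, e₂.1, e₂.2]

theorem cube : ∃ C : ℝ, ∀ x y z : A, |cubeDefect S.f x y z| ≤ C := by
  obtain ⟨C₃, h₃⟩ := S.f_eq (S.g + S.g + S.g)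
  obtain ⟨C₂, h₂⟩ := S.f_eq (S.g + S.g)
  refine ⟨C₃ + 3 * C₂, fun x y z => ?_⟩
  have hpair : ∀ u v : A, |S.f (u + v) - S.Xi (S.rep u + S.rep v)| ≤ C₂ := by
    intro u v
    have := h₂ (S.rep u + S.rep v) (add_nonneg (S.rep_nonneg u) (S.rep_nonneg v))
      (by rw [map_add, S.deg_rep, S.deg_rep]; push_cast; ring)
    rwa [map_add, S.π_rep, S.π_rep] at this
  have htriple : |S.f (x + y + z) - S.Xi (S.rep x + S.rep y + S.rep z)| ≤ C₃ := by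
    have := h₃ (S.rep x + S.rep y + S.rep z)
      (add_nonneg (add_nonneg (S.rep_nonneg x) (S.rep_nonneg y)) (S.rep_nonneg z))
      (by rw [map_add, map_add, S.deg_rep, S.deg_rep, S.deg_rep]; push_cast; ring)
    rwa [map_add, map_add, S.π_rep, S.π_rep, S.π_rep] at this
  have hc := S.Xi_cube (S.rep x) (S.rep y) (S.rep z)
  have e₁ := hpair x y
  have e₂ := hpair x z
  have e₃ := hpair y z
  have hx : S.f x = S.Xi (S.rep x) := rfl
  have hy : S.f y = S.Xi (S.rep y) := rfl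
  have hz : S.f z = S.Xi (S.rep z) := rfl
  unfold cubeDefect
  rw [abs_le] at e₁ e₂ e₃ htriple ⊢
  constructor <;> linarith [e₁.1, e₁.2, e₂.1, e₂.2, e₃.1, e₃.2, htriple.1, htriple.2]

end Sys

end Fermat.Agent.S17.FC

end
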