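import Fermat.Agent.S17.FC.Interface
import Fermat.Agent.S17.FC.Main
import Fermat.Agent.S17.F.Basic
import Fermat.Agent.S17.F.Reduced

/-!
# S17, block FC: a `HeightSystem` gives an abstract `FC.Sys` (owner of the skeleton helper197)

* `piHom O D = cls (D - deg D • pt O)` as an additive map (`cls_add`, `F.degree_sub_degree_smul`).
* `secOf O Z` : a chosen function with divisor `Z - deg Z • O` (junk `0` if there is none).
* `toSys`: `X = Place K F`, `A = Pic0 K F`, `c := S.c + h1Bound K F`, `η Z := S.hs (deg Z).toNat (secOf O Z)`.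
  - `riemann`: `F.exists_effective_of_degree`;
  - `add`: `S.add` (the threshold only got bigger; `single P 1 = pt P` by `rfl`);
  - `mul`: `S.mul n m` with `t = secOf O Z`; `zdiv O m t = Z`; `finrank (Lsp O n E) = n - r + 1 - g` by `F.finrank_L_eq`
    (`deg (n • pt O - E) = n - r ≥ h1Bound`).
-/

set_option autoImplicit false

noncomputable section

namespace Fermat.Agent.S17.FC

open AlgebraicCurve Fermat.Agent.S24.FF Fermat.Agent.S27 Module

variable {K F : Type*} [Field K] [Field F] [Algebra K F] [IsAlgClosed K] [CharZero K] [IsFF1 K F]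

/-- `D ↦` class of `D - deg D • O` -/
def piHom (O : Place K F) : Divisor K F →+ Pic0 K F where
  toFun D := cls (D - Divisor.degree D • pt O)
  map_zero' := by
    rw [map_zero, zero_smul, sub_zero, cls_zero]
  map_add' D E := by
    rw [← cls_add (Fermat.Agent.S17.F.degree_sub_degree_smul O D) (Fermat.Agent.S17.F.degree_sub_degree_smul O E), map_add, add_smul]
    congr 1
    abel

theorem piHom_apply (O : Place K F) (D : Divisor K F) :
    piHom O D = cls (D - Divisor.degree D • pt O) := rfl

theorem piHom_eq_zero_iff (O : Place K F) (Z : Divisor K F) :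
    piHom O Z = 0 ↔ ∃ t : F, t ≠ 0 ∧ Riemann.divOf t = Z - Divisor.degree Z • pt O := by
  rw [piHom_apply, cls_eq_zero_iff (Fermat.Agent.S17.F.degree_sub_degree_smul O Z), mem_principal_iff]
  constructor
  · rintro ⟨t, ht, h⟩
    exact ⟨t, ht, Finsupp.ext fun v => (h v).symm⟩
  · rintro ⟨t, ht, h⟩
    exact ⟨t, ht, fun v => by rw [← h]; rfl⟩

open Classical in
/-- a function with divisor `Z - deg Z • O` -/
def secOf (O : Place K F) (Z : Divisor K F) : F :=
  if h : ∃ t : F, t ≠ 0 ∧ Riemann.divOf t = Z - Divisor.degree Z • pt O then h.choose else 0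

theorem secOf_ne_zero {O : Place K F} {Z : Divisor K F} (h : piHom O Z = 0) : secOf O Z ≠ 0 := by
  have h' := (piHom_eq_zero_iff O Z).mp h
  rw [secOf, dif_pos h']
  exact h'.choose_spec.1

theorem divOf_secOf {O : Place K F} {Z : Divisor K F} (h : piHom O Z = 0) :
    Riemann.divOf (secOf O Z) = Z - Divisor.degree Z • pt O := by
  have h' := (piHom_eq_zero_iff O Z).mp h
  rw [secOf, dif_pos h']
  exact h'.choose_spec.2

theorem zdiv_secOf {O : Place K F} {Z : Divisor K F} {m : ℕ} (h : piHom O Z = 0)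
    (hm : Divisor.degree Z = m) : zdiv O m (secOf O Z) = Z := by
  rw [zdiv, divOf_secOf h, hm, natCast_zsmul, sub_add_cancel]

theorem secOf_mem_Lm {O : Place K F} {Z : Divisor K F} {m : ℕ} (h : piHom O Z = 0) (hZ : 0 ≤ Z)
    (hm : Divisor.degree Z = m) : secOf O Z ∈ Lm O m := by
  rw [Lm, mem_riemannRochSpace_iff]
  intro v
  right
  have h1 : Riemann.divOf (secOf O Z) v = (Z - Divisor.degree Z • pt O) v := by
    rw [divOf_secOf h]
  rw [Riemann.divOf_apply, hm, natCast_zsmul, Finsupp.sub_apply] at h1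
  have h2 : 0 ≤ Z v := hZ v
  rw [h1]
  omega

variable [NonConst K F]

theorem finrank_Lsp_eq (O : Place K F) (n r : ℕ) (E : Divisor K F) (hE : Divisor.degree E = r)
    (h : r + h1Bound K F ≤ n) :
    (finrank K (Lsp O n E) : ℝ) = (n : ℝ) - r + 1 - genusFF K F := by
  have hdeg : Divisor.degree (n • pt O - E) = (n : ℤ) - r := by
    rw [map_sub, map_nsmul, degree_pt, hE, nsmul_eq_mul, mul_one]
  have h1 := Fermat.Agent.S17.F.finrank_L_eq (n • pt O - E) (by rw [hdeg]; omega)
  rw [hdeg] at h1
  rw [Lsp]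
  have h2 : ((finrank K (riemannRochSpace (n • pt O - E)) : ℤ) : ℝ)
      = (((n : ℤ) - r + 1 - genusFF K F : ℤ) : ℝ) := by rw [h1]
  push_cast at h2
  exact h2

namespace HeightSystem

variable {O : Place K F} (S : HeightSystem O)

/-- the abstract system of heights attached to a `HeightSystem` -/
def toSys : Sys (Place K F) (Pic0 K F) where
  g := genusFF K F
  c := S.c + h1Bound K F
  deg := Divisor.degree
  π := piHom O
  H := S.H
  η Z := S.hs (Divisor.degree Z).toNat (secOf O Z)
  deg_single P := degree_pt P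
  riemann a r hr := by
    obtain ⟨E, hE, hd, hc⟩ := Fermat.Agent.S17.F.exists_effective_of_degree O a r hr
    refine ⟨E, hE, hd, ?_⟩
    rw [piHom_apply, hd, natCast_zsmul]
    exact hc
  add n m r r' hn hm := by
    obtain ⟨C, hC⟩ := S.add n m r r' (by omega) (by omega)
    exact ⟨C, fun E E' P hE hE' hd hd' => hC E E' P hE hE' hd hd'⟩
  mul n m r hn := by
    obtain ⟨C, hC⟩ := S.mul n m
    refine ⟨C, fun E Z hE hd hZ hdZ hπ => ?_⟩
    have h1 := hC E hE (secOf O Z) (secOf_mem_Lm hπ hZ hdZ) (secOf_ne_zero hπ)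
    rw [zdiv_secOf hπ hdZ, finrank_Lsp_eq O n r E hd (by omega)] at h1
    have h2 : (Divisor.degree Z).toNat = m := by rw [hdZ]; simp
    rw [h2]
    exact h1

end HeightSystem

end Fermat.Agent.S17.FC

end
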