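import Fermat.Agent.S17.Defs
import Fermat.Agent.S27.WRR2

/-!
# S17, block FC: the geometric interface `HeightSystem` (owner helper197)

`K` algebraically closed of characteristic zero, `F` a function field in one variable, `O` a place ("the cusp").
`H n E` is the height of (the Pluecker vector of) `Lsp O n E = L(n O - E)` inside `Lm O n = L(n O)`,
`hs m t` the height of the coordinate vector of `t ∈ L(m O)`.

PROVIDERS: blocks TP / PL / HA (helper77, helper137) construct ONE term of `HeightSystem`.
CONSUMER: `FC/Inst.lean` (instance of the abstract `FC.Sys` of helper137), `FC/North.lean`, `FC/Final.lean`.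
All constants may depend on the levels and on the degrees, never on the divisors, places, functions.
-/

set_option autoImplicit false

noncomputable section

namespace Fermat.Agent.S17.FC

open AlgebraicCurve Fermat.Agent.S24.FF Fermat.Agent.S27 Module

variable {K F : Type*} [Field K] [Field F] [Algebra K F] [IsAlgClosed K] [CharZero K] [IsFF1 K F]

/-- the divisor of zeros of `t`, seen as a section of `O(m O)` -/
def zdiv (O : Place K F) (m : ℕ) (t : F) : Divisor K F := Riemann.divOf t + m • pt O

/-- The interface between the blocks TP/PL/HA and FC. -/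
structure HeightSystem (O : Place K F) where
  /-- threshold for (A) -/
  c : ℕ
  /-- `H n E` : height of `L(n O - E)` inside `L(n O)` -/
  H : ℕ → Divisor K F → ℝ
  /-- `hs m t` : height of `t ∈ L(m O)` -/
  hs : ℕ → F → ℝ
  /-- (Hnn) heights are nonnegative -/
  nonneg : ∀ (n : ℕ) (E : Divisor K F), 0 ≤ H n E
  /-- (M) `t L(n O - E) = L((n+m) O - E - Z(t))`, all levels -/
  mul : ∀ n m : ℕ, ∃ C : ℝ, ∀ E : Divisor K F, 0 ≤ E → ∀ t ∈ Lm O m, t ≠ 0 →
    |H (n + m) (E + zdiv O m t) - H n E - (finrank K (Lsp O n E) : ℝ) * hs m t| ≤ C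
  /-- (A) the key additivity (balanced levels) -/
  add : ∀ n m r r' : ℕ, r + 1 + c ≤ n → r' + 1 + c ≤ m → ∃ C : ℝ,
    ∀ (E E' : Divisor K F) (P : Place K F), 0 ≤ E → 0 ≤ E' → Divisor.degree E = r →
      Divisor.degree E' = r' →
      |H (n + m) (E + E' + pt P) - H (n + m) (E + E')
        - (H n (E + pt P) - H n E) - (H m (E' + pt P) - H m E')| ≤ C
  /-- (Ale) the upper half of (A) with `E' = 0`, all levels -/
  addLe : ∀ n m : ℕ, ∃ C : ℝ, ∀ (E : Divisor K F) (P : Place K F), 0 ≤ E →
    finrank K (Lsp O n (E + pt P)) < finrank K (Lsp O n E) →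
    finrank K (Lsp O m (pt P)) < finrank K (Lm O m) →
      H n (E + pt P) - H n E + H m (pt P) ≤ H (n + m) (E + pt P) - H (n + m) E + C
  /-- (N1) the height of a line is the height of a generator -/
  line : ∀ n : ℕ, ∃ C : ℝ, ∀ (A : Divisor K F) (s : F), 0 ≤ A → s ≠ 0 →
    Lsp O n A = Submodule.span K {s} → |H n A - hs n s| ≤ C

end Fermat.Agent.S17.FC

end
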