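import Fermat.Agent.S17.FC.North
import Fermat.Agent.S17.F.Special
import Fermat.Agent.S17.F.Reduced

/-!
# S17, block FC, node N3: the main theorem of the block (skeleton helper197)

`T₀` := a finite set of `c₀ = h1Bound K F` places (`Fermat.Agent.S27.infinite_place`, `Infinite.exists_subset_card_eq`);
`Z` := image under `piHom O` of the finite set `{T | 0 ≤ T ∧ deg T ≤ g ∧ T.support ⊆ T₀}` (`finite_divisors`, `Set.Finite.toFinset`).
Cube: `S.toSys.cube`.  `E` reduced for `-z`: `F.IsRed.finrank_L`, `F.IsRed.degree_le`, `F.exists_nonspecial_completion` give `T`;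
`piHom O (E + T) = -z + piHom O T` (`h.2.1`); `S.north` for `E + T`; `hooD (E + T) = hooD E + hooD T ≥ hooD E` (`hooD_nonneg`).
The constant is the maximum (or the sum of absolute values) of the two constants.
-/

set_option autoImplicit false

noncomputable section

namespace Fermat.Agent.S17.FC

open AlgebraicCurve Fermat.Agent.S24.FF Fermat.Agent.S27 Module

variable {K F : Type*} [Field K] [Field F] [Algebra K F] [IsAlgClosed K] [CharZero K] [IsFF1 K F]

variable [NonConst K F]

namespace HeightSystem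

variable {O : Place K F} (S : HeightSystem O)

/-- **Main theorem of block FC.** -/
theorem main : ∃ (Z : Finset (Pic0 K F)) (C : ℝ),
    (∀ x y z : Pic0 K F, |cubeDefect S.toSys.f x y z| ≤ C) ∧
    ∀ (z : Pic0 K F) (E : Divisor K F), IsRed O (-z) E →
      ∃ a ∈ Z, S.toSys.hooD E - C ≤ S.toSys.f (z - a) := by
  classical
  have := infinite_place (K := K) (F := F)
  obtain ⟨T₀, hT₀⟩ := Infinite.exists_subset_card_eq (Place K F) (h1Bound K F)
  have hfin := finite_divisors (T₀ : Set (Place K F)) T₀.finite_toSet (genusFF K F)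
  obtain ⟨C₁, h₁⟩ := S.toSys.cube
  obtain ⟨C₂, h₂⟩ := S.north
  refine ⟨hfin.toFinset.image (piHom O), max C₁ C₂,
    fun x y z => (h₁ x y z).trans (le_max_left _ _), fun z E hE => ?_⟩
  obtain ⟨T, hT0, hTs, hTd, hTl⟩ := Fermat.Agent.S17.F.exists_nonspecial_completion T₀ hT₀.ge E hE.1
    (Fermat.Agent.S17.F.IsRed.finrank_L hE) (Fermat.Agent.S17.F.IsRed.degree_le hE)
  refine ⟨piHom O T, ?_, ?_⟩
  · refine Finset.mem_image_of_mem _ ?_
    rw [Set.Finite.mem_toFinset]
    refine ⟨hT0, ?_, by exact_mod_cast hTs⟩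
    have h0 : 0 ≤ Divisor.degree E := Riemann.degree_nonneg hE.1
    rw [map_add] at hTd
    omega
  · have h3 := h₂ (E + T) (add_nonneg hE.1 hT0) hTd hTl
    have h4 : - piHom O (E + T) = z - piHom O T := by
      rw [map_add, piHom_apply O E, hE.2.1]
      abel
    rw [h4, map_add] at h3
    have h5 := S.hooD_nonneg hT0
    have h6 := le_max_right C₁ C₂
    linarith

end HeightSystem

end Fermat.Agent.S17.FC

end
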