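import Fermat.Agent.S17.FC.Chain

/-!
# S17, block FC, node N2: the formal Northcott inequality (N) (skeleton helper197, proof helper114)

`T := S.toSys`, `g := genusFF K F`, `c₀ := h1Bound K F`.
`n := 2 g + c₀`, `k := n - g`, `M := (k + 1) (2 + T.c)`, `N := n + M` (so that `T.f_eq_H k N`, `T.H_point_eq M`, `chain_le n M k` apply).
Given `E`: `exists_residual` gives `A, s`; `A = ∑ pt (w i)` (`Fermat.Agent.S27.exists_eq_sum_pt`); `Z := A + E`; `piHom O Z = 0`
(`piHom_eq_zero_iff` with `s`); `t := secOf O Z`, `zdiv O n t = Z` (`zdiv_secOf`); `Lsp O n A = K t` (`Lsp_eq_span`), so `l(n O - A) = 1`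
(`finrank_span_singleton`) and `l(n O) = n + 1 - g = k + 1` (`F.finrank_L_eq`).
* `S.line n`: `H n A ≈ hs n t = T.η Z` (`deg Z = n`), `T.eta_eq n`: `T.η Z ≈ hooD Z = hooD A + hooD E`;
* `T.H_point_eq M`: `∑ H M (pt (w i)) ≈ M ∑ hoo (w i) = M hooD A` (`hooD_sum_pt`);
* `chain_le`: `H n A + ∑ H M (pt (w i)) ≤ H N A + C`;
* `T.f_eq_H k N`: `f (π A) ≈ H N A - (N - k + 1 - g) hooD A`, and `N - k + 1 - g = M + 1`;
* `π A = - π E` since `π (A + E) = 0`.
-/

set_option autoImplicit false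

noncomputable section

namespace Fermat.Agent.S17.FC

open AlgebraicCurve Fermat.Agent.S24.FF Fermat.Agent.S27 Module

variable {K F : Type*} [Field K] [Field F] [Algebra K F] [IsAlgClosed K] [CharZero K] [IsFF1 K F]

variable [NonConst K F]

namespace HeightSystem

variable {O : Place K F} (S : HeightSystem O)

/-- (N) -/
theorem north : ∃ C : ℝ, ∀ E : Divisor K F, 0 ≤ E → Divisor.degree E = genusFF K F →
    finrank K (riemannRochSpace E) = 1 → S.toSys.hooD E - C ≤ S.toSys.f (- piHom O E) := by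
  set T := S.toSys with hT
  set g := genusFF K F with hg
  set c₀ := h1Bound K F with hc₀
  obtain ⟨n, hn⟩ : ∃ n : ℕ, n = 2 * g + c₀ := ⟨_, rfl⟩
  obtain ⟨k, hk⟩ : ∃ k : ℕ, k = g + c₀ := ⟨_, rfl⟩
  obtain ⟨M, hM⟩ : ∃ M : ℕ, M = (k + 1) * (2 + T.c) := ⟨_, rfl⟩
  have hTc : T.c = S.c + c₀ := rfl
  have hTg : T.g = g := rfl
  have hM1 : 2 + T.c ≤ M := by
    rw [hM]; nlinarith [Nat.zero_le k, Nat.zero_le T.c]
  obtain ⟨C₁, h₁⟩ := S.line n
  obtain ⟨C₂, h₂⟩ := T.eta_eq n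
  obtain ⟨C₃, h₃⟩ := T.H_point_eq M (by omega)
  obtain ⟨C₄, h₄⟩ := S.chain_le n M k (by omega)
  obtain ⟨C₅, h₅⟩ := T.f_eq_H k (n + M) (by omega)
  refine ⟨C₁ + C₂ + k * C₃ + C₄ + C₅, fun E hE hdeg hl => ?_⟩
  obtain ⟨A, s, hA, hdegA, hs, hzs⟩ := exists_residual O n (by omega) E hE hdeg
  have hnk : n - g = k := by omega
  rw [← hg, hnk] at hdegA
  obtain ⟨w, hw⟩ := exists_eq_sum_pt k A hA hdegA
  have hZ0 : 0 ≤ A + E := add_nonneg hA hE
  have hdegZ : Divisor.degree (A + E) = (n : ℕ) := by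
    rw [map_add, hdegA, hdeg]; omega
  have hπZ : piHom O (A + E) = 0 := by
    rw [piHom_eq_zero_iff]
    refine ⟨s, hs, ?_⟩
    rw [hdegZ, ← hzs, zdiv]
    simp
  have ht0 := secOf_ne_zero hπZ
  have hzt := zdiv_secOf hπZ hdegZ
  have hspan := Lsp_eq_span O n A E (secOf O (A + E)) hE hl ht0 hzt
  have hfr1 : finrank K (Lsp O n A) = 1 := by
    rw [hspan]; exact finrank_span_singleton ht0
  have hfr2 : finrank K (Lm O n) = k + 1 := by
    have hd : Divisor.degree (n • pt O) = (n : ℤ) := by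
      rw [map_nsmul, Fermat.Agent.S17.F.deg_pt_eq_one]; simp
    have h := Fermat.Agent.S17.F.finrank_L_eq (n • pt O) (by rw [hd]; omega)
    rw [hd] at h
    have h' : (finrank K (Lm O n) : ℤ) = (n : ℤ) + 1 - g := h
    omega
  -- the five relations
  have e₁ := abs_le.mp (h₁ A (secOf O (A + E)) hA ht0 hspan)
  have hη : T.η (A + E) = S.hs n (secOf O (A + E)) := by
    show S.hs (Divisor.degree (A + E)).toNat (secOf O (A + E)) = _
    rw [hdegZ, Int.toNat_natCast]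
  have e₂ := abs_le.mp (h₂ (A + E) hZ0 hdegZ hπZ)
  rw [hη, map_add] at e₂
  have e₃ : (M : ℝ) * T.hooD A - k * C₃ ≤ ∑ i, S.H M (pt (w i)) := by
    rw [hw, S.hooD_sum_pt w, Finset.mul_sum]
    have : ∑ i : Fin k, ((M : ℝ) * T.hoo (w i) - C₃) ≤ ∑ i, S.H M (pt (w i)) :=
      Finset.sum_le_sum fun i _ => by
        have := abs_le.mp (h₃ (w i))
        have h' : T.H M (Finsupp.single (w i) 1) = S.H M (pt (w i)) := rfl
        rw [h'] at this
        linarith [this.1]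
    rw [Finset.sum_sub_distrib] at this
    simpa using this
  have e₄ := h₄ w (by rw [← hw, hfr1, hfr2]; omega)
  rw [← hw] at e₄
  have e₅ := abs_le.mp (h₅ A hA hdegA)
  have hπA : T.π A = - piHom O E := by
    have : piHom O A + piHom O E = 0 := by rw [← map_add]; exact hπZ
    exact eq_neg_of_add_eq_zero_left this
  rw [hπA] at e₅
  have hH : T.H (n + M) A = S.H (n + M) A := rfl
  rw [hH, hTg] at e₅
  have hcoef : (((n + M : ℕ) : ℝ) - k + 1 - g) = (M : ℝ) + 1 := by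
    have : (n : ℝ) = k + g := by
      have : n = k + g := by omega
      exact_mod_cast this
    push_cast
    rw [this]; ring
  rw [hcoef] at e₅
  nlinarith [e₁.1, e₂.1, e₃, e₄, e₅.1]

end HeightSystem

end Fermat.Agent.S17.FC

end
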