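import Fermat.Agent.S17.FC.Point

/-!
# S17/FC node FC2: heights of pairs, `H n ([P] + [Q]) = n (hoo P + hoo Q) + del P Q + O(1)`

Put `δ_n P Q = H n ([P]+[Q]) - n (hoo P + hoo Q)`.  Axiom `add` with `E = [Q]` (`r = 1`, level `n ≥ 2 + c`), `E' = 0`
(`r' = 0`, level `m ≥ 1 + c`) and `H_point_eq` at the levels `n + m`, `n`, `m` give `δ_{n+m} = δ_n + O(1)`.
Apply this to `(n, 1 + c)` and to `(2 + c, n - (2 + c) + 1 + c)`: same total level `n + 1 + c`.  `del = δ_{2+c}` by definition.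
-/

set_option autoImplicit false

noncomputable section

namespace Fermat.Agent.S17.FC

open Finsupp

variable {X A : Type*} [AddCommGroup A] (S : Sys X A)

namespace Sys

theorem H_pair_shift (n m : ℕ) (hn : 2 + S.c ≤ n) (hm : 1 + S.c ≤ m) :
    ∃ C : ℝ, ∀ P Q : X,
      |(S.H (n + m) (single P 1 + single Q 1) - ((n + m : ℕ) : ℝ) * (S.hoo P + S.hoo Q))
        - (S.H n (single P 1 + single Q 1) - (n : ℝ) * (S.hoo P + S.hoo Q))| ≤ C := by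
  obtain ⟨C₀, h₀⟩ := S.add n m 1 0 (by omega) (by omega)
  obtain ⟨C₁, h₁⟩ := S.H_point_eq (n + m) (by omega)
  obtain ⟨C₂, h₂⟩ := S.H_point_eq n (by omega)
  obtain ⟨C₃, h₃⟩ := S.H_point_eq m hm
  refine ⟨C₀ + C₁ + C₂ + C₃ + |S.H m 0|, fun P Q => ?_⟩
  have hQ0 : (0 : X →₀ ℤ) ≤ single Q 1 := by
    simp
  have e₀ := h₀ (single Q 1) 0 P hQ0 le_rfl (by simpa using S.deg_single Q) (by simp)
  rw [add_zero, zero_add, add_comm (single Q 1) (single P 1)] at e₀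
  have e₁ := h₁ Q
  have e₂ := h₂ Q
  have e₃ := h₃ P
  have e₄ := le_abs_self (S.H m 0)
  have e₅ := neg_abs_le (S.H m 0)
  rw [abs_le] at e₀ e₁ e₂ e₃ ⊢
  push_cast at e₁ ⊢
  constructor <;> nlinarith [e₀.1, e₀.2, e₁.1, e₁.2, e₂.1, e₂.2, e₃.1, e₃.2]

theorem H_pair_eq (n : ℕ) (hn : 2 + S.c ≤ n) :
    ∃ C : ℝ, ∀ P Q : X,
      |S.H n (single P 1 + single Q 1) - n * (S.hoo P + S.hoo Q) - S.del P Q| ≤ C := by
  obtain ⟨C₀, h₀⟩ := S.H_pair_shift n (1 + S.c) hn le_rfl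
  obtain ⟨C₁, h₁⟩ := S.H_pair_shift (2 + S.c) (n - 1) le_rfl (by omega)
  have hlev : 2 + S.c + (n - 1) = n + (1 + S.c) := by omega
  rw [hlev] at h₁
  refine ⟨C₀ + C₁, fun P Q => ?_⟩
  have e₀ := h₀ P Q
  have e₁ := h₁ P Q
  rw [abs_le] at e₀ e₁ ⊢
  unfold del
  constructor <;> linarith [e₀.1, e₀.2, e₁.1, e₁.2]

end Sys

end Fermat.Agent.S17.FC

end
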