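import Fermat.Agent.S17.FC.Basic

/-!
# S17/FC node FC1: heights of points, `H n [P] = n hoo P + O(1)`

* `H_point_add`: axiom `add` with `E = E' = 0`, `r = r' = 0`; the numbers `H k 0` are constants.
* `H_point_mul`: induction on `k` (`(k+1) n = k n + n`).
* `H_point_eq`: with `n₀ = 1 + c`: `H (n₀ n) [P] = n₀ H n [P] + O(1) = n H n₀ [P] + O(1)` (`H_point_mul` twice, `mul_comm`),
  and `H n₀ [P] = n₀ hoo P` by definition; divide by `n₀ > 0`.
-/

set_option autoImplicit false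

noncomputable section

namespace Fermat.Agent.S17.FC

open Finsupp

variable {X A : Type*} [AddCommGroup A] (S : Sys X A)

namespace Sys

theorem H_point_add (n m : ℕ) (hn : 1 + S.c ≤ n) (hm : 1 + S.c ≤ m) :
    ∃ C : ℝ, ∀ P : X, |S.H (n + m) (single P 1) - S.H n (single P 1) - S.H m (single P 1)| ≤ C := by
  obtain ⟨C, hC⟩ := S.add n m 0 0 (by omega) (by omega)
  refine ⟨C + |S.H (n + m) 0| + |S.H n 0| + |S.H m 0|, fun P => ?_⟩
  have h := hC 0 0 P le_rfl le_rfl (by simp) (by simp)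
  simp only [zero_add] at h
  have h1 := abs_le.mp h
  have a1 := neg_abs_le (S.H (n + m) 0)
  have a2 := le_abs_self (S.H (n + m) 0)
  have b1 := neg_abs_le (S.H n 0)
  have b2 := le_abs_self (S.H n 0)
  have c1 := neg_abs_le (S.H m 0)
  have c2 := le_abs_self (S.H m 0)
  rw [abs_le]
  constructor <;> linarith [h1.1, h1.2]

theorem H_point_mul (n k : ℕ) (hn : 1 + S.c ≤ n) (hk : 1 ≤ k) :
    ∃ C : ℝ, ∀ P : X, |S.H (k * n) (single P 1) - k * S.H n (single P 1)| ≤ C := by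
  induction k, hk using Nat.le_induction with
  | base => exact ⟨0, fun P => by simp⟩
  | succ k hk ih =>
    obtain ⟨C, hC⟩ := ih
    have hkn : 1 + S.c ≤ k * n := le_trans hn (Nat.le_mul_of_pos_left n hk)
    obtain ⟨C', hC'⟩ := S.H_point_add (k * n) n hkn hn
    refine ⟨C + C', fun P => ?_⟩
    have h1 := abs_le.mp (hC P)
    have h2 := abs_le.mp (hC' P)
    have e : (k + 1) * n = k * n + n := by ring
    rw [e, abs_le]
    push_cast
    constructor <;> linarith [h1.1, h1.2, h2.1, h2.2]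

theorem H_point_eq (n : ℕ) (hn : 1 + S.c ≤ n) :
    ∃ C : ℝ, ∀ P : X, |S.H n (single P 1) - n * S.hoo P| ≤ C := by
  have hn1 : 1 ≤ n := by omega
  obtain ⟨C, hC⟩ := S.H_point_mul n (1 + S.c) hn (by omega)
  obtain ⟨C', hC'⟩ := S.H_point_mul (1 + S.c) n le_rfl hn1
  have hpos : (0 : ℝ) < ((1 + S.c : ℕ) : ℝ) := by
    have : 0 < 1 + S.c := by omega
    exact_mod_cast this
  refine ⟨(C + C') / ((1 + S.c : ℕ) : ℝ), fun P => ?_⟩
  have h1 := abs_le.mp (hC P)
  have h2 := abs_le.mp (hC' P)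
  rw [mul_comm n (1 + S.c)] at h2
  have e : S.H (1 + S.c) (single P 1) = ((1 + S.c : ℕ) : ℝ) * S.hoo P := by
    unfold hoo
    field_simp
  rw [e] at h2
  rw [le_div_iff₀ hpos, ← abs_of_pos hpos, ← abs_mul, abs_le]
  constructor <;> nlinarith [h1.1, h1.2, h2.1, h2.2]

end Sys

end Fermat.Agent.S17.FC

end
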