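import Fermat.Agent.S17.FC.Diff

/-!
# S17/FC node FC4: the quadratic formula `H n E = n hooD E + q E + O(1)`

Induction on `r = deg E` (the statement for ALL levels `n ≥ (r + 1) (2 + c)`).  `r = 0`: `E = 0`.
`r + 1`: `E = E₁ + [Q]`; `H_diff_eq r n`, induction hypothesis at the same level `n`, `q_add_single`, `hooD_single`.
-/

set_option autoImplicit false

noncomputable section

namespace Fermat.Agent.S17.FC

open Finsupp

variable {X A : Type*} [AddCommGroup A] (S : Sys X A)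

namespace Sys

theorem H_eq (r n : ℕ) (hn : (r + 1) * (2 + S.c) ≤ n) :
    ∃ C : ℝ, ∀ E : X →₀ ℤ, 0 ≤ E → S.deg E = r → |S.H n E - n * S.hooD E - S.q E| ≤ C := by
  induction r with
  | zero =>
    refine ⟨|S.H n 0|, fun E hE hdeg => ?_⟩
    have h0 : E = 0 := S.eq_zero_of_deg_eq_zero hE (by simpa using hdeg)
    rw [h0, map_zero, S.q_zero, mul_zero, sub_zero, sub_zero]
  | succ r ih =>
    have hn' : (r + 1) * (2 + S.c) ≤ n := le_trans (Nat.mul_le_mul_right _ (Nat.le_succ _)) hn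
    obtain ⟨C₁, hC₁⟩ := ih hn'
    obtain ⟨C₂, hC₂⟩ := S.H_diff_eq r n hn'
    refine ⟨C₂ + C₁, fun E hE hdeg => ?_⟩
    obtain ⟨Q, E₁, hE₁, hdeg₁, rfl⟩ := S.exists_sub_single_nonneg hE hdeg
    have h1 := hC₁ E₁ hE₁ hdeg₁
    have h2 := hC₂ E₁ Q hE₁ hdeg₁
    have e : S.H n (E₁ + single Q 1) - n * S.hooD (E₁ + single Q 1) - S.q (E₁ + single Q 1)
        = (S.H n (E₁ + single Q 1) - S.H n E₁ - n * S.hoo Q - S.B E₁ (single Q 1))
          + (S.H n E₁ - n * S.hooD E₁ - S.q E₁) := by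
      rw [map_add, S.hooD_single, S.q_add_single]
      ring
    rw [e]
    exact (abs_add_le _ _).trans (add_le_add h2 h1)

end Sys

end Fermat.Agent.S17.FC

end
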